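/-
S16 (Mazur's Eisenstein quotient), chapter B (lower bound), brick (B1) (helper19):
**FAITH for the FULL Hecke algebra** (any `S`, in particular `S = ∅`, including the operators `U_q`,
`q ∣ N`).  The generic lattice-transport machine `Faith26.latticeHom` is run with all Hecke
generators: `T_l` (`l ∤ N`) acts on `Λ = parabolicHoms ℤ Γ₀(N) ℤ` by the double coset operator
`tdcPar` (`FaithFinal26.dcData`), `U_q` (`q ∣ N`) by helper28's `UqOp28.UqPar`
(period compatibility: helper1's `PeriodUq1.periodHomPair_heckeULin`).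

* `heckeLamFull S : ↥(heckeAlgebra N 2 S) →ₐ[ℤ] Module.End ℤ ↥(Lam N)`, `heckeLamFull_injective`,
* `heckeLamFull_T`, `heckeLamFull_U` (the images of the generators),
* `coe_heckeLamFull_T_apply`, `coe_heckeLamFull_U_apply` (coset formulas).
-/
import Mathlib
import Fermat.Agent.ES.HEQ.FaithFinal26
import Fermat.Agent.ES.LR.UqOp28
import Fermat.Agent.ES.LR.PeriodUq1

set_option autoImplicit false
set_option linter.unusedSectionVars false

noncomputable section

namespace Fermat.Agent.ES.S16.FaithFull19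

open ModularCurve ModularCurve.Period CongruenceSubgroup CuspForm
open Fermat.Agent.ES.HEQ.Faith26 Fermat.Agent.ES.HEQ.FaithInst26 Fermat.Agent.ES.HEQ.FaithFinal26
open Fermat.Agent.ES.HEQ.DoubleCoset27 Fermat.Agent.ES.HEQ.DoubleCosetPar27
open Fermat.Agent.ES.LR.UqOp28 Fermat.Agent.ES.LR.PeriodUq1

variable {N : ℕ} [NeZero N]

/-- `U_q` on the lattice is compatible with `U_q` on `Hom(Γ₀(N), ℂ)`. -/
theorem castParC_UqPar {q : ℕ} [Fact q.Prime] (hqN : q ∣ N) (φ : ↥(Lam N)) :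
    ((castParC N (UqPar hqN ℤ ℤ φ) : ↥(ParC N)) : Additive (Gamma0 N) →+ ℂ) =
      UqAdd hqN ((castParC N φ : ↥(ParC N)) : Additive (Gamma0 N) →+ ℂ) :=
  (UqAdd_comp hqN (Int.castAddHom ℂ) (φ : Additive (Gamma0 N) →+ ℤ)).symm

/-- every Hecke generator (including the `U_q`) preserves the lattice. -/
theorem stab_of_mem_heckeGenerators_full (S : Set ℕ) :
    ∀ T ∈ heckeGenerators N 2 S, ∀ φ : ↥(Lam N),
      ∃ m : ↥(Lam N), castParC N m = conjHom (periodEquiv N) T (castParC N φ) := by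
  rintro T (⟨l, hl, hlN, -, rfl⟩ | ⟨q, hqN, hq, -, rfl⟩) φ
  · refine ⟨(dcData N).dZ l hl hlN φ, ?_⟩
    apply Subtype.ext
    rw [(dcData N).cast, conjHom_apply, coe_periodEquiv, periodHomPair_hecke (dcData N),
      ← coe_periodEquiv, Prod.mk.eta, LinearEquiv.apply_symm_apply]
  · have : Fact q.Prime := ⟨hq⟩
    refine ⟨UqPar hqN ℤ ℤ φ, ?_⟩
    apply Subtype.ext
    rw [castParC_UqPar, conjHom_apply, coe_periodEquiv, periodHomPair_heckeULin,
      ← coe_periodEquiv, Prod.mk.eta, LinearEquiv.apply_symm_apply]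

variable (S : Set ℕ)

/-- **The action of the full Hecke algebra on the lattice `Λ`.** -/
def heckeLamFull : ↥(heckeAlgebra N 2 S) →ₐ[ℤ] Module.End ℤ ↥(Lam N) :=
  latticeHom (periodEquiv N) (castParC_injective N) (heckeGenerators N 2 S)
    (stab_of_mem_heckeGenerators_full S)

/-- **FAITH** for the full Hecke algebra. -/
theorem heckeLamFull_injective : Function.Injective (heckeLamFull (N := N) S) :=
  latticeHom_injective (periodEquiv N) (castParC_injective N) (dcData N).span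
    (heckeGenerators N 2 S) (stab_of_mem_heckeGenerators_full S)

/-- `T_l` acts as the double coset operator. -/
theorem heckeLamFull_T (l : ℕ) [Fact l.Prime] (hl : l.Prime) (hlN : ¬ l ∣ N) (hlS : l ∉ S) :
    heckeLamFull S (heckeAlgebra.T hl hlN hlS) = tdcPar hlN ℤ ℤ := by
  refine latticeHom_eq_of (periodEquiv N) (castParC_injective N) (heckeGenerators N 2 S)
    (stab_of_mem_heckeGenerators_full S) _ _ (fun φ => ?_)
  apply Subtype.ext
  have h := (dcData N).cast l hl hlN φ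
  rw [show (dcData N).dZ l hl hlN = tdcPar hlN ℤ ℤ from rfl] at h
  rw [h, conjHom_apply, coe_periodEquiv]
  show periodHomPair N (heckeTLin 2 hl hlN _, heckeTLin 2 hl hlN _) = _
  rw [periodHomPair_hecke (dcData N), ← coe_periodEquiv, Prod.mk.eta,
    LinearEquiv.apply_symm_apply]

/-- `U_q` acts as `UqPar`. -/
theorem heckeLamFull_U (q : ℕ) [Fact q.Prime] (hq : q.Prime) (hqN : q ∣ N) (hqS : q ∉ S) :
    heckeLamFull S (heckeAlgebra.U hq hqN hqS) = UqPar hqN ℤ ℤ := by
  refine latticeHom_eq_of (periodEquiv N) (castParC_injective N) (heckeGenerators N 2 S)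
    (stab_of_mem_heckeGenerators_full S) _ _ (fun φ => ?_)
  apply Subtype.ext
  rw [castParC_UqPar, conjHom_apply, coe_periodEquiv]
  show periodHomPair N (heckeULin 2 hqN _, heckeULin 2 hqN _) = _
  rw [periodHomPair_heckeULin, ← coe_periodEquiv, Prod.mk.eta, LinearEquiv.apply_symm_apply]

/-- `(T_l φ) γ = ∑ i, φ (coc γ i)`. -/
theorem coe_heckeLamFull_T (l : ℕ) [Fact l.Prime] (hl : l.Prime) (hlN : ¬ l ∣ N) (hlS : l ∉ S)
    (φ : ↥(Lam N)) :
    ((heckeLamFull S (heckeAlgebra.T hl hlN hlS) φ : ↥(Lam N)) : Additive (Gamma0 N) →+ ℤ)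
      = tdcAdd hlN (φ : Additive (Gamma0 N) →+ ℤ) := by
  rw [heckeLamFull_T S l hl hlN hlS, coe_tdcPar]

/-- `(U_q φ) γ = ∑ j, φ (cocU γ j)`. -/
theorem coe_heckeLamFull_U (q : ℕ) [Fact q.Prime] (hq : q.Prime) (hqN : q ∣ N) (hqS : q ∉ S)
    (φ : ↥(Lam N)) :
    ((heckeLamFull S (heckeAlgebra.U hq hqN hqS) φ : ↥(Lam N)) : Additive (Gamma0 N) →+ ℤ)
      = UqAdd hqN (φ : Additive (Gamma0 N) →+ ℤ) := by
  rw [heckeLamFull_U S q hq hqN hqS, coe_UqPar]

end Fermat.Agent.ES.S16.FaithFull19
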