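/-
S16 (Mazur's Eisenstein quotient), chapter B (lower bound), item (B3) (helper21), abstract part:
**lifting of symbols and of parabolic homomorphisms from `ℤ/n` to `ℤ`** in the Shapiro model
(`Model13` vocabulary).

`G` acts transitively on the finite set `X`, `σ τ : G`, `σ ^ 2 = 1`, `τ ^ 3 = 1`, `G = ⟨σ, τ⟩`.

* `exists_anti_add_orth` : every `f : X → ℤ` with `∑ f = 0` is `u + v'` with `u + σ u = 0` and
  `v' ⊥ (τ-invariant functions)` (connectivity of the graph of `τ`-orbits linked by `σ`);
* `exists_anti_lift`     : a `σ`-antisymmetric `v̄ : X → ZMod n` vanishing at the `σ`-fixed points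
  has a `σ`-antisymmetric lift to `ℤ`;
* `exists_symb_lift`     : a symbol `v̄ ∈ symb (ZMod n) σ τ` vanishing at the `σ`-fixed points lifts
  to a symbol `v ∈ symb ℤ σ τ`;
* `exists_hom_lift`      : a homomorphism `χ : Stab(x0) → ZMod n` killing the conjugates of the powers
  of `σ τ`, of `σ` and of `τ` lifts to a parabolic homomorphism `φ : Stab(x0) → ℤ`
  (cocycle-extension hypothesis `hext` as in `ShapiroBridge1` (S6)).
-/
import Mathlib
import Fermat.Agent.ES.I2.Model13
import Fermat.Agent.ES.I2.ShapiroBridge1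

set_option autoImplicit false
set_option linter.unusedSectionVars false

namespace Fermat.Agent.ES.S16.LiftSymb21

open Fermat.Agent.ES.I2 Fermat.Agent.ES.I2.Model13 Fermat.Agent.ES.I2.ShapiroBridge1 MulAction

variable {G : Type*} [Group G] {X : Type*} [MulAction G X] [Fintype X]

/-! ### elementary facts on `act`, `form` -/

theorem act_single [DecidableEq X] {R : Type*} [CommRing R] (g : G) (x : X) (r : R) :
    Model13.act g (Pi.single x r) = Pi.single (g • x) r := by
  funext y
  rw [Model13.act_apply]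
  by_cases h : y = g • x
  · subst h
    rw [inv_smul_smul, Pi.single_eq_same, Pi.single_eq_same]
  · have h' : g⁻¹ • y ≠ x := by
      intro h'
      apply h
      rw [← h', smul_inv_smul]
    rw [Pi.single_eq_of_ne h', Pi.single_eq_of_ne h]

theorem form_single_left' [DecidableEq X] {R : Type*} [CommRing R] (x : X) (w : X → R) :
    Model13.form (Pi.single x 1) w = w x := by
  unfold Model13.form
  rw [Finset.sum_eq_single x]
  · simp
  · intro y _ hy
    simp [hy]
  · intro h
    exact absurd (Finset.mem_univ x) h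

theorem apply_smul_of_act_eq {R : Type*} [CommRing R] {g : G} {w : X → R}
    (hw : Model13.act g w = w) (x : X) : w (g • x) = w x := by
  have h := congrFun hw (g • x)
  rw [Model13.act_apply, inv_smul_smul] at h
  exact h.symm

/-! ### the connectivity lemma -/

/-- the `σ`-antisymmetric functions. -/
def anti (σ : G) : Submodule ℤ (X → ℤ) where
  carrier := {u | u + Model13.act σ u = 0}
  zero_mem' := by simp
  add_mem' := by
    intro u u' h h'
    show u + u' + Model13.act σ (u + u') = 0
    rw [map_add]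
    calc u + u' + (Model13.act σ u + Model13.act σ u')
        = (u + Model13.act σ u) + (u' + Model13.act σ u') := by abel
      _ = 0 := by rw [h, h', add_zero]
  smul_mem' := by
    intro c u h
    show c • u + Model13.act σ (c • u) = 0
    rw [map_smul, ← smul_add, h, smul_zero]

/-- the functions orthogonal to the `τ`-invariant functions. -/
def orth (τ : G) : Submodule ℤ (X → ℤ) where
  carrier := {v | ∀ w : X → ℤ, Model13.act τ w = w → Model13.form v w = 0}
  zero_mem' := fun w _ => Model13.form_zero_left w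
  add_mem' := by
    intro v v' h h' w hw
    rw [Model13.form_add_left, h w hw, h' w hw, add_zero]
  smul_mem' := by
    intro c v h w hw
    rw [Model13.form_smul_left, h w hw, mul_zero]

theorem mem_anti {σ : G} {u : X → ℤ} : u ∈ anti (X := X) σ ↔ u + Model13.act σ u = 0 := Iff.rfl

theorem mem_orth {τ : G} {v : X → ℤ} :
    v ∈ orth (X := X) τ ↔ ∀ w : X → ℤ, Model13.act τ w = w → Model13.form v w = 0 := Iff.rfl

theorem single_sub_single_mem [DecidableEq X] {σ τ : G} (hσ : σ ^ 2 = 1)
    (hgen : Subgroup.closure {σ, τ} = ⊤) (g : G) :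
    ∀ x : X, (Pi.single x 1 - Pi.single (g • x) 1 : X → ℤ) ∈ anti (X := X) σ ⊔ orth (X := X) τ := by
  have hg : g ∈ Subgroup.closure {σ, τ} := by rw [hgen]; trivial
  induction hg using Subgroup.closure_induction with
  | mem g hg =>
    intro x
    rcases hg with rfl | rfl
    · apply Submodule.mem_sup_left
      rw [mem_anti, map_sub, act_single, act_single, ← mul_smul, ← pow_two, hσ, one_smul]
      abel
    · apply Submodule.mem_sup_right
      intro w hw
      rw [Model13.form_sub_left, form_single_left', form_single_left',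
        apply_smul_of_act_eq hw, sub_self]
  | one =>
    intro x
    rw [one_smul, sub_self]
    exact Submodule.zero_mem _
  | mul a b _ _ iha ihb =>
    intro x
    have e : (Pi.single x 1 - Pi.single ((a * b) • x) 1 : X → ℤ)
        = (Pi.single x 1 - Pi.single (b • x) 1) +
          (Pi.single (b • x) 1 - Pi.single (a • b • x) 1) := by
      rw [mul_smul]; abel
    rw [e]
    exact Submodule.add_mem _ (ihb x) (iha (b • x))
  | inv a _ iha =>
    intro x
    have e : (Pi.single x 1 - Pi.single (a⁻¹ • x) 1 : X → ℤ)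
        = - (Pi.single (a⁻¹ • x) 1 - Pi.single (a • a⁻¹ • x) 1) := by
      rw [smul_inv_smul]; abel
    rw [e]
    exact Submodule.neg_mem _ (iha (a⁻¹ • x))

/-- **connectivity**: a function of total sum `0` is the sum of a `σ`-antisymmetric function and of
a function orthogonal to the `τ`-invariant functions. -/
theorem exists_anti_add_orth [IsPretransitive G X] {σ τ : G} (hσ : σ ^ 2 = 1)
    (hgen : Subgroup.closure {σ, τ} = ⊤) (x0 : X) (f : X → ℤ) (hf : ∑ x, f x = 0) :
    ∃ u : X → ℤ, u + Model13.act σ u = 0 ∧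
      ∀ w : X → ℤ, Model13.act τ w = w → Model13.form (f - u) w = 0 := by
  classical
  have key : f ∈ anti (X := X) σ ⊔ orth (X := X) τ := by
    have e : f = ∑ x, f x • (Pi.single x 1 - Pi.single x0 1 : X → ℤ) := by
      funext y
      rw [Finset.sum_apply]
      simp only [Pi.smul_apply, Pi.sub_apply, smul_eq_mul, mul_sub]
      rw [Finset.sum_sub_distrib, ← Finset.sum_mul, hf, zero_mul, sub_zero]
      rw [Finset.sum_eq_single y]
      · simp
      · intro x _ hx
        rw [Pi.single_eq_of_ne (Ne.symm hx), mul_zero]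
      · intro h
        exact absurd (Finset.mem_univ y) h
    rw [e]
    refine Submodule.sum_mem _ (fun x _ => Submodule.smul_mem _ _ ?_)
    obtain ⟨g, hg⟩ := exists_smul_eq G x0 x
    have h := single_sub_single_mem (X := X) hσ hgen g x0
    rw [hg] at h
    have e2 : (Pi.single x 1 - Pi.single x0 1 : X → ℤ) = - (Pi.single x0 1 - Pi.single x 1) := by
      abel
    rw [e2]
    exact Submodule.neg_mem _ h
  obtain ⟨u, hu, v', hv', huv⟩ := Submodule.mem_sup.mp key
  refine ⟨u, hu, fun w hw => ?_⟩
  have : f - u = v' := by rw [← huv]; abel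
  rw [this]
  exact hv' w hw

/-! ### correcting the orbit sums -/

theorem form_sum_right {R : Type*} [CommRing R] {ι : Type*} (t : Finset ι) (v : X → R)
    (a : ι → R) (g : ι → X → R) :
    Model13.form v (∑ i ∈ t, a i • g i) = ∑ i ∈ t, a i * Model13.form v (g i) := by
  classical
  induction t using Finset.induction_on with
  | empty => simp [Model13.form_zero_right]
  | insert i t hi ih =>
    rw [Finset.sum_insert hi, Finset.sum_insert hi, Model13.form_add_right,
      Model13.form_smul_right, ih]

theorem form_sum_left {R : Type*} [CommRing R] {ι : Type*} (t : Finset ι) (w : X → R)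
    (a : ι → R) (g : ι → X → R) :
    Model13.form (∑ i ∈ t, a i • g i) w = ∑ i ∈ t, a i * Model13.form (g i) w := by
  rw [Model13.form_comm, form_sum_right]
  exact Finset.sum_congr rfl (fun i _ => by rw [Model13.form_comm])

theorem act_eq_of_mem_zpowers {R : Type*} [CommRing R] {τ : G} {w : X → R}
    (hw : Model13.act τ w = w) {h : G} (hh : h ∈ Subgroup.zpowers τ) : Model13.act h w = w := by
  rw [Subgroup.zpowers_eq_closure] at hh
  induction hh using Subgroup.closure_induction with
  | mem g hg =>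
    rw [Set.mem_singleton_iff] at hg
    rw [hg]; exact hw
  | one => exact Model13.act_one w
  | mul a b _ _ iha ihb => rw [Model13.act_mul, ihb, iha]
  | inv a _ iha =>
    have := Model13.act_inv_act a w
    rw [iha] at this
    exact this

/-- a `τ`-invariant function is constant on the orbits of `⟨τ⟩`. -/
theorem apply_eq_of_orbit {R : Type*} [CommRing R] {τ : G} {w : X → R}
    (hw : Model13.act τ w = w) {x y : X}
    (h : (Quotient.mk'' x : orbitRel.Quotient (Subgroup.zpowers τ) X) = Quotient.mk'' y) :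
    w x = w y := by
  have h' : x ∈ orbit (Subgroup.zpowers τ) y := Quotient.exact' h
  obtain ⟨⟨k, hk⟩, rfl⟩ := h'
  exact apply_smul_of_act_eq (act_eq_of_mem_zpowers hw hk) y

/-- **orbit sums**: if all the pairings of `v1` with `τ`-invariant functions are divisible by
`n`, they are `n` times the pairings of a function `f`. -/
theorem exists_fiber_fun {τ : G} {n : ℤ} (v1 : X → ℤ)
    (hdvd : ∀ w : X → ℤ, Model13.act τ w = w → n ∣ Model13.form v1 w) :
    ∃ f : X → ℤ, ∀ w : X → ℤ, Model13.act τ w = w →
      Model13.form v1 w = n * Model13.form f w := by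
  classical
  let Ω := orbitRel.Quotient (Subgroup.zpowers τ) X
  have : Fintype Ω := Fintype.ofFinite _
  let π : X → Ω := Quotient.mk''
  let ind : Ω → X → ℤ := fun O x => if π x = O then 1 else 0
  have hind : ∀ O, Model13.act τ (ind O) = ind O := by
    intro O
    funext x
    rw [Model13.act_apply]
    have : π (τ⁻¹ • x) = π x := by
      apply Quotient.sound'
      exact ⟨⟨τ⁻¹, Subgroup.inv_mem _ (Subgroup.mem_zpowers τ)⟩, rfl⟩
    simp only [ind, this]
  choose c hc using fun O => hdvd (ind O) (hind O)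
  refine ⟨∑ O : Ω, c O • (Pi.single (Quotient.out O) 1 : X → ℤ), fun w hw => ?_⟩
  have hdec : w = ∑ O : Ω, w (Quotient.out O) • ind O := by
    funext x
    rw [Finset.sum_apply]
    simp only [Pi.smul_apply, smul_eq_mul, ind, mul_ite, mul_one, mul_zero]
    rw [Finset.sum_eq_single (π x)]
    · rw [if_pos rfl]
      exact apply_eq_of_orbit hw (Quotient.out_eq' (π x)).symm
    · intro O _ hO
      rw [if_neg (Ne.symm hO)]
    · intro h
      exact absurd (Finset.mem_univ _) h
  rw [form_sum_left]
  conv_lhs => rw [hdec, form_sum_right]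
  rw [Finset.mul_sum]
  refine Finset.sum_congr rfl (fun O _ => ?_)
  rw [hc O, form_single_left']
  ring

/-! ### antisymmetric lifts -/

/-- a `σ`-antisymmetric function with values in `ZMod n` vanishing at the fixed points of `σ` has a
`σ`-antisymmetric lift to `ℤ`. -/
theorem exists_anti_lift {σ : G} (hσ : σ ^ 2 = 1) (n : ℕ) (vb : X → ZMod n)
    (hanti : vb + Model13.act σ vb = 0) (hfix : ∀ x : X, σ • x = x → vb x = 0) :
    ∃ v1 : X → ℤ, v1 + Model13.act σ v1 = 0 ∧ ∀ x, ((v1 x : ℤ) : ZMod n) = vb x := by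
  classical
  let e := Fintype.equivFin X
  have hσσ : ∀ x : X, σ⁻¹ • σ⁻¹ • x = x := by
    intro x
    rw [← mul_smul, ← mul_inv_rev, ← pow_two, hσ, inv_one, one_smul]
  have hanti' : ∀ x : X, vb x + vb (σ⁻¹ • x) = 0 := fun x => by
    have h := congrFun hanti x
    rwa [Pi.add_apply, Model13.act_apply] at h
  let v1 : X → ℤ := fun x =>
    if e x < e (σ⁻¹ • x) then (ZMod.cast (vb x) : ℤ)
    else if e (σ⁻¹ • x) < e x then - (ZMod.cast (vb (σ⁻¹ • x)) : ℤ) else 0
  refine ⟨v1, ?_, ?_⟩
  · funext x
    rw [Pi.add_apply, Model13.act_apply, Pi.zero_apply]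
    simp only [v1, hσσ]
    rcases lt_trichotomy (e x) (e (σ⁻¹ • x)) with h | h | h
    · rw [if_pos h, if_neg (not_lt.mpr h.le), if_pos h]
      ring
    · rw [if_neg (by rw [h]; exact lt_irrefl _), if_neg (by rw [h]; exact lt_irrefl _),
        if_neg (by rw [h]; exact lt_irrefl _), if_neg (by rw [h]; exact lt_irrefl _)]
      ring
    · rw [if_neg (not_lt.mpr h.le), if_pos h, if_pos h]
      ring
  · intro x
    simp only [v1]
    rcases lt_trichotomy (e x) (e (σ⁻¹ • x)) with h | h | h
    · rw [if_pos h]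
      exact ZMod.intCast_zmod_cast (vb x)
    · rw [if_neg (by rw [h]; exact lt_irrefl _), if_neg (by rw [h]; exact lt_irrefl _)]
      have hx : σ⁻¹ • x = x := (e.injective h).symm
      have hx' : σ • x = x := by
        have := congrArg (fun y => σ • y) hx
        simp only [smul_inv_smul] at this
        exact this.symm
      rw [hfix x hx']
      simp
    · rw [if_neg (not_lt.mpr h.le), if_pos h]
      push_cast
      have := hanti' x
      exact (eq_neg_of_add_eq_zero_left this).symm

/-! ### lifting symbols -/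

theorem cast_form (n : ℕ) (v w : X → ℤ) :
    ((Model13.form v w : ℤ) : ZMod n)
      = Model13.form (fun x => ((v x : ℤ) : ZMod n)) (fun x => ((w x : ℤ) : ZMod n)) := by
  unfold Model13.form
  push_cast
  rfl

theorem cast_act (n : ℕ) (g : G) (w : X → ℤ) :
    (fun x => ((Model13.act g w x : ℤ) : ZMod n))
      = Model13.act g (fun x => ((w x : ℤ) : ZMod n)) := rfl

/-- **symbols lift**: a symbol with values in `ZMod n` vanishing at the fixed points of `σ` is the
reduction of an integral symbol. -/
theorem exists_symb_lift [IsPretransitive G X] {σ τ : G} (hσ : σ ^ 2 = 1)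
    (hgen : Subgroup.closure {σ, τ} = ⊤) (x0 : X) (n : ℕ) [NeZero n] {vb : X → ZMod n}
    (hvb : vb ∈ Model13.symb (ZMod n) σ τ) (hfix : ∀ x : X, σ • x = x → vb x = 0) :
    ∃ v ∈ Model13.symb ℤ σ τ, ∀ x, ((v x : ℤ) : ZMod n) = vb x := by
  obtain ⟨v1, hv1, hv1b⟩ := exists_anti_lift hσ n vb hvb.1 hfix
  have hn : (n : ℤ) ≠ 0 := by exact_mod_cast NeZero.ne n
  -- divisibility of the pairings with invariant functions
  have hdvd : ∀ w : X → ℤ, Model13.act τ w = w → (n : ℤ) ∣ Model13.form v1 w := by
    intro w hw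
    rw [← ZMod.intCast_zmod_eq_zero_iff_dvd, cast_form]
    have e1 : (fun x => ((v1 x : ℤ) : ZMod n)) = vb := funext hv1b
    rw [e1]
    apply hvb.2
    rw [← cast_act, hw]
  obtain ⟨f, hf⟩ := exists_fiber_fun v1 hdvd
  -- total sums
  have hone : Model13.act τ (fun _ => (1 : ℤ) : X → ℤ) = fun _ => 1 := rfl
  have hsum1 : ∑ x, v1 x = 0 := by
    have h1 : ∑ x, Model13.act σ v1 x = ∑ x, v1 x := by
      simp only [Model13.act_apply]
      exact Equiv.sum_comp (MulAction.toPerm σ⁻¹) v1
    have h2 : ∑ x, (v1 + Model13.act σ v1) x = 0 := by rw [hv1]; simp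
    simp only [Pi.add_apply, Finset.sum_add_distrib, h1] at h2
    omega
  have hsumf : ∑ x, f x = 0 := by
    have h := hf _ hone
    unfold Model13.form at h
    simp only [mul_one] at h
    rw [hsum1] at h
    exact (mul_eq_zero.mp h.symm).resolve_left hn
  obtain ⟨u, hu, huf⟩ := exists_anti_add_orth hσ hgen x0 f hsumf
  refine ⟨v1 - (n : ℤ) • u, ⟨?_, fun w hw => ?_⟩, fun x => ?_⟩
  · rw [map_sub, map_smul]
    calc v1 - (n : ℤ) • u + (Model13.act σ v1 - (n : ℤ) • Model13.act σ u)
        = (v1 + Model13.act σ v1) - (n : ℤ) • (u + Model13.act σ u) := by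
          rw [smul_add]; abel
      _ = 0 := by rw [hv1, hu, smul_zero, sub_zero]
  · have h1 := huf w hw
    rw [Model13.form_sub_left] at h1
    rw [Model13.form_sub_left, Model13.form_smul_left, hf w hw]
    have : Model13.form f w = Model13.form u w := by linarith
    rw [this, sub_self]
  · rw [Pi.sub_apply, Pi.smul_apply, smul_eq_mul]
    push_cast
    rw [hv1b x, ZMod.natCast_self, zero_mul, sub_zero]

/-! ### lifting homomorphisms -/

/-- reduction mod `n` of a homomorphism to `ℤ`. -/
def redHom {K : Type*} [AddZeroClass K] (n : ℕ) (φ : K →+ ℤ) : K →+ ZMod n :=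
  (Int.castAddHom (ZMod n)).comp φ

@[simp] theorem redHom_apply {K : Type*} [AddZeroClass K] (n : ℕ) (φ : K →+ ℤ) (k : K) :
    redHom n φ k = ((φ k : ℤ) : ZMod n) := rfl

theorem sh_redHom {x0 : X} (s : Sec G x0) (n : ℕ) (φ : Additive (stabilizer G x0) →+ ℤ) (g : G) :
    Model13.sh s (redHom n φ) g = fun x => ((Model13.sh s φ g x : ℤ) : ZMod n) := rfl

theorem isPar_redHom {x0 : X} {T : G} (n : ℕ) {φ : Additive (stabilizer G x0) →+ ℤ}
    (hφ : IsPar T φ) : IsPar T (redHom n φ) := by
  intro g k h
  rw [redHom_apply, hφ g k h, Int.cast_zero]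

theorem cast_mem_bdry {σ τ : G} (n : ℕ) {b : X → ℤ} (hb : b ∈ Model13.bdry ℤ σ τ) :
    (fun x => ((b x : ℤ) : ZMod n)) ∈ Model13.bdry (ZMod n) σ τ := by
  obtain ⟨ρ, hρ, rfl⟩ := hb
  refine ⟨fun x => ((ρ x : ℤ) : ZMod n), ?_, ?_⟩
  · rw [← cast_act, hρ]
  · funext x
    simp only [Pi.sub_apply, Model13.act_apply]
    push_cast
    rfl

/-- **(B3), abstract form**: a homomorphism `χ : Stab(x0) → ZMod n` killing the conjugates of the
powers of `σ τ`, of `σ` and of `τ` is the reduction mod `n` of a parabolic homomorphism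
`φ : Stab(x0) → ℤ`. -/
theorem exists_hom_lift [IsPretransitive G X] {σ τ : G} (hσ : σ ^ 2 = 1) (hτ : τ ^ 3 = 1)
    (hgen : Subgroup.closure {σ, τ} = ⊤) {x0 : X}
    (hext : ∀ a b : X → ℤ, a + Model13.act σ a = 0 →
      b + Model13.act τ b + Model13.act (τ ^ 2) b = 0 →
      ∃ z : G → X → ℤ, Model13.IsCocycle z ∧ z σ = a ∧ z τ = b)
    {s : Sec G x0} (hs : Adapted (σ * τ) s) (n : ℕ) [NeZero n]
    (χ : Additive (stabilizer G x0) →+ ZMod n) (hpar : IsPar (σ * τ) χ)
    (hkσ : KillsConj σ χ) (hkτ : KillsConj τ χ) :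
    ∃ φ : Additive (stabilizer G x0) →+ ℤ, IsPar (σ * τ) φ ∧ KillsConj τ φ ∧
      ∀ γ, ((φ γ : ℤ) : ZMod n) = χ γ := by
  have h0χ : Model13.sh s χ (σ * τ) = 0 := sh_T hs hpar
  have hvb : Model13.sh s χ σ ∈ Model13.symb (ZMod n) σ τ := sh_σ_mem_symb hσ hτ h0χ hkτ
  have hfix : ∀ x : X, σ • x = x → Model13.sh s χ σ x = 0 := by
    intro x hx
    show χ (Additive.ofMul (s.tr σ x)) = 0
    have hx' : σ⁻¹ • x = x := by rw [inv_smul_eq_iff, hx]
    have hm : (s.r x)⁻¹ * σ * ((s.r x)⁻¹)⁻¹ ∈ stabilizer G x0 := by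
      have := (s.tr σ x).2
      simp only [Sec.tr, hx'] at this
      simpa using this
    have e : s.tr σ x = ⟨(s.r x)⁻¹ * σ * ((s.r x)⁻¹)⁻¹, hm⟩ := by
      apply Subtype.ext
      simp only [Sec.tr, hx', inv_inv]
    rw [e]
    exact hkσ _ hm
  obtain ⟨v, hv, hvv⟩ := exists_symb_lift hσ hgen x0 n hvb hfix
  obtain ⟨φ, hφ, hφτ, hφv⟩ := exists_hom_of_mem_symb hτ hext hv hs
  refine ⟨φ, hφ, hφτ, ?_⟩
  -- `redHom n φ - χ` is parabolic with a boundary symbol
  have hpar' : IsPar (σ * τ) (redHom n φ - χ) := by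
    intro g k h
    rw [AddMonoidHom.sub_apply, isPar_redHom n hφ g k h, hpar g k h, sub_zero]
  have h0 : Model13.sh s (redHom n φ - χ) (σ * τ) = 0 := sh_T hs hpar'
  have hb : Model13.sh s (redHom n φ - χ) σ ∈ Model13.bdry (ZMod n) σ τ := by
    have e : Model13.sh s (redHom n φ - χ) σ
        = fun x => (((Model13.sh s φ σ - v) x : ℤ) : ZMod n) := by
      rw [sh_sub]
      funext x
      show ((Model13.sh s φ σ x : ℤ) : ZMod n) - Model13.sh s χ σ x
        = (((Model13.sh s φ σ x - v x : ℤ)) : ZMod n)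
      rw [Int.cast_sub, hvv x]
    rw [e]
    exact cast_mem_bdry n hφv
  have hzero := eq_zero_of_sh_σ_mem_bdry hgen hσ h0 hb
  intro γ
  have := DFunLike.congr_fun hzero γ
  rw [AddMonoidHom.sub_apply, redHom_apply, AddMonoidHom.zero_apply, sub_eq_zero] at this
  exact this

end Fermat.Agent.ES.S16.LiftSymb21
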