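/-
S16 (Mazur's Eisenstein quotient), chapter B (lower bound), item (B3) (helper21):
**a homomorphism `χ : Γ → ℤ/n` killing the parabolic and the elliptic elements of a finite index
subgroup `Γ ≤ SL(2,ℤ)` lifts to a parabolic homomorphism `φ : Γ → ℤ`**, `φ ≡ χ mod n`.

Proof in the Shapiro model of Program L (`Gamma0Model11`: `Q = PSL(2,ℤ) = ⟨Sb⟩ * ⟨Ub⟩` acting on
`XQ Γ = Q ⧸ Γ̄`): descend `χ` to the stabiliser of the base point (`pushA`), apply the abstract lift
`LiftSymb21.exists_hom_lift`, pull back with `Gamma0Model11.pull`.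

* `pushA`, `pushA_toStab` : descent of a homomorphism killing `-1` along `Γ → Γ̄`;
* `exists_lift`           : the lifting statement (B3), any finite index `Γ`;
* `exists_lift_Gamma0`    : the instance `Γ = Γ₀(N)`.
-/
import Mathlib
import Fermat.Agent.ES.S16.LiftSymb21
import Fermat.Agent.ES.I2.Gamma0Model11
import Fermat.Agent.ES.I2.ModelNondeg21

set_option autoImplicit false
set_option linter.unusedSectionVars false

namespace Fermat.Agent.ES.S16.LiftChi21

open Matrix MatrixGroups ModularGroup ModularCurve.Period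
open Fermat.Agent.ES.I2 Fermat.Agent.ES.I2.PSL2Free11 Fermat.Agent.ES.I2.Gamma0Model11
open Fermat.Agent.ES.I2.ShapiroBridge1

variable (Γ : Subgroup SL(2, ℤ))

section Push

variable {A : Type*} [AddCommGroup A]

/-- a homomorphism killing `-1` is constant on the fibres of `toStab`. -/
theorem apply_eq_of_toStab_eq' (χ : Additive Γ →+ A)
    (hneg : ∀ δ : Γ, (δ : SL(2, ℤ)) = -1 → χ (Additive.ofMul δ) = 0)
    {γ γ' : Γ} (h : toStab Γ γ = toStab Γ γ') :
    χ (Additive.ofMul γ) = χ (Additive.ofMul γ') := by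
  rcases (toStab_eq_iff Γ γ γ').mp h with h | h
  · rw [Subtype.ext h]
  · set δ : Γ := γ * γ'⁻¹ with hδ
    have hδ1 : (δ : SL(2, ℤ)) = -1 := by
      rw [hδ, Subgroup.coe_mul, Subgroup.coe_inv, h]
      simp
    have h0 : χ (Additive.ofMul δ) = 0 := hneg δ hδ1
    have : γ = δ * γ' := by rw [hδ]; group
    rw [this, ofMul_mul, map_add, h0, zero_add]

/-- descent of a homomorphism `Γ → A` killing `-1` to the stabiliser of the base point. -/
noncomputable def pushA (χ : Additive Γ →+ A)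
    (hneg : ∀ δ : Γ, (δ : SL(2, ℤ)) = -1 → χ (Additive.ofMul δ) = 0) :
    Additive (MulAction.stabilizer Q (x0 Γ)) →+ A where
  toFun x := χ (Additive.ofMul (Classical.choose (toStab_surjective Γ (Additive.toMul x))))
  map_zero' := by
    have h := Classical.choose_spec (toStab_surjective Γ (Additive.toMul (0 : Additive _)))
    have := apply_eq_of_toStab_eq' Γ χ hneg (h.trans (map_one (toStab Γ)).symm)
    rw [this]; simp
  map_add' x y := by
    have hx := Classical.choose_spec (toStab_surjective Γ (Additive.toMul x))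
    have hy := Classical.choose_spec (toStab_surjective Γ (Additive.toMul y))
    have hxy := Classical.choose_spec (toStab_surjective Γ (Additive.toMul (x + y)))
    have : toStab Γ (Classical.choose (toStab_surjective Γ (Additive.toMul (x + y))))
        = toStab Γ (Classical.choose (toStab_surjective Γ (Additive.toMul x)) *
            Classical.choose (toStab_surjective Γ (Additive.toMul y))) := by
      rw [map_mul, hx, hy, hxy]; rfl
    rw [apply_eq_of_toStab_eq' Γ χ hneg this, ofMul_mul, map_add]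

theorem pushA_toStab (χ : Additive Γ →+ A)
    (hneg : ∀ δ : Γ, (δ : SL(2, ℤ)) = -1 → χ (Additive.ofMul δ) = 0) (γ : Γ) :
    pushA Γ χ hneg (Additive.ofMul (toStab Γ γ)) = χ (Additive.ofMul γ) := by
  have h := Classical.choose_spec (toStab_surjective Γ (toStab Γ γ))
  exact apply_eq_of_toStab_eq' Γ χ hneg h

end Push

/-! ### traces of conjugates -/

theorem trace_conj (x g : SL(2, ℤ)) :
    ((x * g * x⁻¹ : SL(2, ℤ)) : Matrix (Fin 2) (Fin 2) ℤ).trace
      = ((g : SL(2, ℤ)) : Matrix (Fin 2) (Fin 2) ℤ).trace := by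
  rw [Matrix.SpecialLinearGroup.coe_mul, Matrix.SpecialLinearGroup.coe_mul,
    Matrix.trace_mul_cycle, ← Matrix.SpecialLinearGroup.coe_mul, inv_mul_cancel,
    Matrix.SpecialLinearGroup.coe_one, one_mul]

theorem trace_S : ((S : SL(2, ℤ)) : Matrix (Fin 2) (Fin 2) ℤ).trace = 0 := by
  rw [ModularGroup.coe_S, Matrix.trace_fin_two_of]
  norm_num

theorem trace_ST : ((S * T : SL(2, ℤ)) : Matrix (Fin 2) (Fin 2) ℤ).trace = 1 := by
  rw [coe_ST, Matrix.trace_fin_two_of]
  norm_num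

/-- an element of `Γ` whose image in `PSL(2,ℤ)` is conjugate to the image of `g` has trace
`± tr g`. -/
theorem trace_of_mkQ_eq {γ x g : SL(2, ℤ)} (h : mkQ γ = mkQ x * mkQ g * (mkQ x)⁻¹) :
    ((γ : SL(2, ℤ)) : Matrix (Fin 2) (Fin 2) ℤ).trace
        = ((g : SL(2, ℤ)) : Matrix (Fin 2) (Fin 2) ℤ).trace ∨
      ((γ : SL(2, ℤ)) : Matrix (Fin 2) (Fin 2) ℤ).trace
        = - ((g : SL(2, ℤ)) : Matrix (Fin 2) (Fin 2) ℤ).trace := by
  rw [← map_inv, ← map_mul, ← map_mul, mkQ_eq_mkQ_iff] at h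
  rcases h with h | h
  · left; rw [h, trace_conj]
  · right; rw [h, Matrix.SpecialLinearGroup.coe_neg, Matrix.trace_neg, trace_conj]

/-! ### the lifting statement -/

variable [Γ.FiniteIndex]

/-- **(B3)**: a homomorphism `χ : Γ → ZMod n` killing the parabolic elements (trace `± 2`, including
`± 1`) and the elliptic elements (trace `0`, `± 1`) is the reduction mod `n` of a parabolic
homomorphism `φ : Γ → ℤ`. -/
theorem exists_lift (n : ℕ) [NeZero n] (χ : Additive Γ →+ ZMod n) (hpar : IsParabolicHom Γ χ)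
    (hell : ∀ γ : Γ, (((γ : SL(2, ℤ)) : Matrix (Fin 2) (Fin 2) ℤ).trace = 0 ∨
        ((γ : SL(2, ℤ)) : Matrix (Fin 2) (Fin 2) ℤ).trace = 1 ∨
        ((γ : SL(2, ℤ)) : Matrix (Fin 2) (Fin 2) ℤ).trace = -1) → χ (Additive.ofMul γ) = 0) :
    ∃ φ ∈ parabolicHoms ℤ Γ ℤ, ∀ γ : Γ,
      ((φ (Additive.ofMul γ) : ℤ) : ZMod n) = χ (Additive.ofMul γ) := by
  have hneg : ∀ δ : Γ, (δ : SL(2, ℤ)) = -1 → χ (Additive.ofMul δ) = 0 := by
    intro δ hδ
    apply hpar
    rw [hδ]
    simp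
  set χb := pushA Γ χ hneg with hχb
  have hpull : pull Γ (ZMod n) χb = χ := by
    ext γ
    exact pushA_toStab Γ χ hneg γ
  have hparb : IsPar (Sb * Ub) χb := by
    have := (isParabolicHom_pull_iff Γ χb).mp (by rw [hpull]; exact hpar)
    exact this
  -- conjugates of `Sb`, `Ub`
  have hkill : ∀ (u : SL(2, ℤ)), (((u : SL(2, ℤ)) : Matrix (Fin 2) (Fin 2) ℤ).trace = 0 ∨
      ((u : SL(2, ℤ)) : Matrix (Fin 2) (Fin 2) ℤ).trace = 1) → KillsConj (mkQ u) χb := by
    intro u hu g h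
    obtain ⟨x, rfl⟩ := mkQ_surjective g
    obtain ⟨γ, hγ, hγx⟩ := (mem_Gb Γ).mp ((mem_stabilizer_x0 Γ).mp h)
    have heq : toStab Γ ⟨γ, hγ⟩ = ⟨mkQ x * mkQ u * (mkQ x)⁻¹, h⟩ := Subtype.ext hγx
    rw [← heq, pushA_toStab]
    apply hell
    rcases trace_of_mkQ_eq hγx with h1 | h1
    · show ((γ : SL(2, ℤ)) : Matrix (Fin 2) (Fin 2) ℤ).trace = 0 ∨ _
      rw [h1]
      rcases hu with hu | hu
      · left; exact hu
      · right; left; exact hu
    · show ((γ : SL(2, ℤ)) : Matrix (Fin 2) (Fin 2) ℤ).trace = 0 ∨ _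
      rw [h1]
      rcases hu with hu | hu
      · left; rw [hu, neg_zero]
      · right; right; rw [hu]
  have hkσ : KillsConj Sb χb := hkill S (Or.inl trace_S)
  have hkτ : KillsConj Ub χb := hkill (S * T) (Or.inr trace_ST)
  obtain ⟨s, hs⟩ := exists_adapted (G := Q) (X := XQ Γ) (x0 := x0 Γ) (Sb * Ub)
  obtain ⟨φb, hφb, -, hφχ⟩ := LiftSymb21.exists_hom_lift (G := Q) (X := XQ Γ) Sb_sq Ub_cube
    closure_Sb_Ub (fun a b ha hb => ModelNondeg21.hext_PSL2 a b ha hb) hs n χb hparb hkσ hkτ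
  refine ⟨pull Γ ℤ φb, (pull_mem_parabolicHoms_iff Γ φb).mpr hφb, fun γ => ?_⟩
  rw [pull_apply, hφχ, pushA_toStab]

/-- **(B3)** for `Γ₀(N)`. -/
theorem exists_lift_Gamma0 (N : ℕ) [NeZero N] (n : ℕ) [NeZero n]
    (χ : Additive (CongruenceSubgroup.Gamma0 N) →+ ZMod n)
    (hpar : IsParabolicHom (CongruenceSubgroup.Gamma0 N) χ)
    (hell : ∀ γ : CongruenceSubgroup.Gamma0 N,
      (((γ : SL(2, ℤ)) : Matrix (Fin 2) (Fin 2) ℤ).trace = 0 ∨
        ((γ : SL(2, ℤ)) : Matrix (Fin 2) (Fin 2) ℤ).trace = 1 ∨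
        ((γ : SL(2, ℤ)) : Matrix (Fin 2) (Fin 2) ℤ).trace = -1) → χ (Additive.ofMul γ) = 0) :
    ∃ φ ∈ parabolicHoms ℤ (CongruenceSubgroup.Gamma0 N) ℤ, ∀ γ : CongruenceSubgroup.Gamma0 N,
      ((φ (Additive.ofMul γ) : ℤ) : ZMod n) = χ (Additive.ofMul γ) :=
  exists_lift (CongruenceSubgroup.Gamma0 N) n χ hpar hell

end Fermat.Agent.ES.S16.LiftChi21
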