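/-
S16 (Mazur's Eisenstein quotient), chapter B (lower bound), brick (B4) (helper19): the assembly.

If `χ : Γ₀(p) → ℤ/n` is an Eisenstein eigen-character (`T_l χ = (l+1) χ`, `U_p χ = χ`) of exact
order `n` which is the reduction of an integral parabolic homomorphism `φ ∈ Λ = Lam p`, then every
`P ∈ HeckeAlg = ℤ[X_l]` which acts as `0` on the lattice of cusp forms satisfies
`n ∣ P(eisensteinSystem p)`; i.e. `#(T/I)` is a multiple of `n` (helper12's contract (LB')).

* `aeval_apply_sub_smul_mem` : abstract induction over `MvPolynomial` (`Ψ(P(g)) φ ≡ P(a) φ mod n Λ`).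
* `exists_eq_smul_of_forall_dvd` : an element of `Λ` with values divisible by `n` lies in `n Λ`.
* `dvd_aeval_of_char` : the lower bound from `χ`, `φ`.
-/
import Mathlib
import Fermat.Prelude.Def_CuspForm_HeckeLocal
import Fermat.Prelude.Def_CuspForm_HeckeEvalForms
import Fermat.Agent.ES.S16.FaithFull19

set_option autoImplicit false
set_option linter.unusedSectionVars false

noncomputable section

namespace Fermat.Agent.ES.S16.LowerBound19

open ModularCurve ModularCurve.Period CongruenceSubgroup CuspForm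
open Fermat.Agent.ES.HEQ.FaithInst26
open Fermat.Agent.ES.HEQ.DoubleCoset27 Fermat.Agent.ES.HEQ.DoubleCosetPar27
open Fermat.Agent.ES.LR.UqOp28 Fermat.Agent.ES.S16.FaithFull19

/-! ### abstract induction -/

/-- If `Ψ (g i) φ ≡ a i • φ` modulo `n Λ` for all generators, then `Ψ (P(g)) φ ≡ P(a) • φ` modulo
`n Λ` for every polynomial `P`. -/
theorem aeval_apply_sub_smul_mem {ι T' Λ : Type*} [CommRing T'] [AddCommGroup Λ]
    (g : ι → T') (Ψ : T' →+* Module.End ℤ Λ) (a : ι → ℤ) (φ : Λ) (n : ℤ)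
    (heig : ∀ i, ∃ μ : Λ, Ψ (g i) φ - a i • φ = n • μ) (P : MvPolynomial ι ℤ) :
    ∃ μ : Λ, Ψ (MvPolynomial.aeval g P) φ - (MvPolynomial.aeval a P) • φ = n • μ := by
  induction P using MvPolynomial.induction_on with
  | C c =>
    refine ⟨0, ?_⟩
    rw [MvPolynomial.aeval_C, MvPolynomial.aeval_C, smul_zero, sub_eq_zero]
    have h1 : (algebraMap ℤ T' c) = (c : T') := rfl
    rw [h1, map_intCast]
    simp
  | add P Q hP hQ =>
    obtain ⟨μ, hμ⟩ := hP
    obtain ⟨ν, hν⟩ := hQ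
    refine ⟨μ + ν, ?_⟩
    rw [map_add, map_add, map_add, LinearMap.add_apply, add_smul, smul_add, ← hμ, ← hν]
    abel
  | mul_X P i hP =>
    obtain ⟨μ, hμ⟩ := hP
    obtain ⟨μi, hμi⟩ := heig i
    refine ⟨a i • μ + Ψ (MvPolynomial.aeval g P) μi, ?_⟩
    have e1 : Ψ (g i) φ = a i • φ + n • μi := by rw [← hμi]; abel
    have e2 : Ψ (MvPolynomial.aeval g P) φ = (MvPolynomial.aeval a P) • φ + n • μ := by
      rw [← hμ]; abel
    have hg : MvPolynomial.aeval g (P * MvPolynomial.X i) = MvPolynomial.aeval g P * g i := by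
      rw [map_mul, MvPolynomial.aeval_X]
    have ha : MvPolynomial.aeval a (P * MvPolynomial.X i) = MvPolynomial.aeval a P * a i := by
      rw [map_mul, MvPolynomial.aeval_X]
    rw [hg, ha, map_mul, Module.End.mul_apply, e1, map_add, map_zsmul, map_zsmul, e2]
    module

/-! ### the lattice -/

variable {N : ℕ}

/-- an element of `Λ` all of whose values are divisible by `n ≠ 0` is `n` times an element of `Λ`
(twin of `Ihara26.exists_eq_smul_of_forall_dvd`, restated here to keep the import closure small). -/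
theorem exists_eq_smul_of_forall_dvd {n : ℕ} (hn : n ≠ 0) (z : ↥(Lam N))
    (h : ∀ γ : Gamma0 N, (n : ℤ) ∣ (z : Additive (Gamma0 N) →+ ℤ) (Additive.ofMul γ)) :
    ∃ y : ↥(Lam N), z = (n : ℤ) • y := by
  have hn0 : (n : ℤ) ≠ 0 := by exact_mod_cast hn
  let y0 : Additive (Gamma0 N) →+ ℤ :=
    { toFun := fun γ => (z : Additive (Gamma0 N) →+ ℤ) γ / (n : ℤ)
      map_zero' := by simp
      map_add' := fun a b => by
        rw [map_add]
        exact Int.add_ediv_of_dvd_right (h (Additive.toMul b)) }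
  have hy0 : y0 ∈ Lam N := by
    have hz := z.2
    rw [mem_parabolicHoms_iff] at hz ⊢
    intro γ hγ
    show (z : Additive (Gamma0 N) →+ ℤ) (Additive.ofMul γ) / (n : ℤ) = 0
    rw [hz γ hγ, Int.zero_ediv]
  refine ⟨⟨y0, hy0⟩, ?_⟩
  apply Subtype.ext
  ext γ
  show (z : Additive (Gamma0 N) →+ ℤ) (Additive.ofMul γ)
    = (n : ℤ) • ((z : Additive (Gamma0 N) →+ ℤ) (Additive.ofMul γ) / (n : ℤ))
  rw [smul_eq_mul, Int.mul_ediv_cancel' (h γ)]

/-- an element of `Λ` whose reduction mod `n` vanishes lies in `n Λ`. -/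
theorem exists_eq_smul_of_cast_eq_zero {n : ℕ} [NeZero n] (z : ↥(Lam N))
    (h : (Int.castAddHom (ZMod n)).comp (z : Additive (Gamma0 N) →+ ℤ) = 0) :
    ∃ y : ↥(Lam N), z = (n : ℤ) • y := by
  refine exists_eq_smul_of_forall_dvd (NeZero.ne n) z fun γ => ?_
  have := DFunLike.congr_fun h (Additive.ofMul γ)
  exact (ZMod.intCast_zmod_eq_zero_iff_dvd _ _).mp this

/-! ### the lower bound -/

section LB

variable (p : ℕ) [hp : Fact p.Prime]

/-- **(B4)** the lower bound from an Eisenstein eigen-character of exact order `n` which lifts to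
`Λ`.  `ψ P = 0` is helper12's hypothesis of (LB'). -/
theorem dvd_aeval_of_char (hint : HasIntegralStructure p 2) (n : ℕ) [NeZero n]
    (χ : Additive (Gamma0 p) →+ ZMod n)
    (hT : ∀ (l : ℕ) [Fact l.Prime] (hlp : ¬ l ∣ p), tdcAdd hlp χ = (l + 1) • χ)
    (hU : UqAdd (dvd_refl p) χ = χ)
    (hord : ∀ k : ℤ, k • χ = 0 → (n : ℤ) ∣ k)
    (φ : ↥(Lam p))
    (hφ : (Int.castAddHom (ZMod n)).comp (φ : Additive (Gamma0 p) →+ ℤ) = χ)
    (P : HeckeAlg)
    (hP : ((latticeRestrictHom p ∅).toRingHom.comp (heckeEvalForms p 2)) P = 0) :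
    (n : ℤ) ∣ MvPolynomial.aeval (eisensteinSystem p) P := by
  -- `heckeEvalForms P = 0`
  have hP0 : heckeEvalForms p 2 P = 0 := by
    apply (latticeRestrictHom_bijective p ∅ hint).1
    rw [map_zero]
    exact hP
  -- the eigen-property of `φ` modulo `n Λ`
  have heig : ∀ ℓ : Nat.Primes, ∃ μ : ↥(Lam p),
      (heckeLamFull (N := p) ∅).toRingHom (heckeFormsGen p 2 ℓ) φ - eisensteinSystem p ℓ • φ
        = (n : ℤ) • μ := by
    intro ℓ
    have : Fact (ℓ : ℕ).Prime := ⟨ℓ.2⟩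
    apply exists_eq_smul_of_cast_eq_zero
    by_cases hℓ : (ℓ : ℕ) ∣ p
    · -- `U_p`
      have hℓp : (ℓ : ℕ) = p := (Nat.prime_dvd_prime_iff_eq ℓ.2 hp.out).mp hℓ
      rw [heckeFormsGen_of_dvd hℓ, eisensteinSystem_of_dvd hℓ, one_smul]
      show (Int.castAddHom (ZMod n)).comp
        (((heckeLamFull (N := p) ∅ (heckeAlgebra.U ℓ.2 hℓ (Set.notMem_empty _)) φ - φ : ↥(Lam p)) :
          Additive (Gamma0 p) →+ ℤ)) = 0
      rw [Submodule.coe_sub, coe_heckeLamFull_U ∅ (ℓ : ℕ) ℓ.2 hℓ (Set.notMem_empty _) φ]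
      rw [show (Int.castAddHom (ZMod n)).comp (UqAdd hℓ (φ : Additive (Gamma0 p) →+ ℤ) - ↑φ)
        = (Int.castAddHom (ZMod n)).comp (UqAdd hℓ (φ : Additive (Gamma0 p) →+ ℤ))
          - (Int.castAddHom (ZMod n)).comp (φ : Additive (Gamma0 p) →+ ℤ) from by
            ext γ; simp]
      rw [← UqAdd_comp, hφ]
      subst hℓp
      rw [hU, sub_self]
    · -- `T_l`
      rw [heckeFormsGen_of_not_dvd hℓ, eisensteinSystem_of_not_dvd hℓ]
      show (Int.castAddHom (ZMod n)).comp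
        (((heckeLamFull (N := p) ∅ (heckeAlgebra.T ℓ.2 hℓ (Set.notMem_empty _)) φ
          - (1 + ((ℓ : ℕ) : ℤ)) • φ : ↥(Lam p)) : Additive (Gamma0 p) →+ ℤ)) = 0
      rw [Submodule.coe_sub, coe_heckeLamFull_T ∅ (ℓ : ℕ) ℓ.2 hℓ (Set.notMem_empty _) φ,
        Submodule.coe_smul]
      rw [show (Int.castAddHom (ZMod n)).comp (tdcAdd hℓ (φ : Additive (Gamma0 p) →+ ℤ)
          - (1 + ((ℓ : ℕ) : ℤ)) • (φ : Additive (Gamma0 p) →+ ℤ))
        = (Int.castAddHom (ZMod n)).comp (tdcAdd hℓ (φ : Additive (Gamma0 p) →+ ℤ))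
          - (1 + ((ℓ : ℕ) : ℤ)) • (Int.castAddHom (ZMod n)).comp (φ : Additive (Gamma0 p) →+ ℤ)
        from by ext γ; simp]
      rw [← tdcAdd_comp, hφ, hT (ℓ : ℕ) hℓ]
      ext γ
      simp [add_comm]
  obtain ⟨μ, hμ⟩ := aeval_apply_sub_smul_mem (heckeFormsGen p 2)
    (heckeLamFull (N := p) ∅).toRingHom (eisensteinSystem p) φ (n : ℤ) heig P
  have hev : MvPolynomial.aeval (heckeFormsGen p 2) P = heckeEvalForms p 2 P := rfl
  rw [hev, hP0, map_zero, LinearMap.zero_apply, zero_sub] at hμ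
  -- `ev(P) • φ ∈ n Λ`, reduce mod `n`
  apply hord
  rw [← hφ]
  ext γ
  have h1 := congrArg (fun z : ↥(Lam p) =>
    (((z : Additive (Gamma0 p) →+ ℤ) (Additive.ofMul γ) : ℤ) : ZMod n)) hμ
  simp only [Submodule.coe_neg, Submodule.coe_smul, AddMonoidHom.neg_apply,
    AddMonoidHom.smul_apply, smul_eq_mul, Int.cast_neg, Int.cast_mul, Int.cast_natCast,
    ZMod.natCast_self, zero_mul, neg_eq_zero] at h1
  simpa using h1

end LB

end Fermat.Agent.ES.S16.LowerBound19
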