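/-
S16 (Mazur's Eisenstein quotient), chapter B (lower bound), brick (B2-U) (helper19):
**`U_p` on characters of `Γ₀(p)` which only depend on `d mod p`.**

For the coset representatives `β_j = (1 j; 0 p)` of `UqOp28` one has `β_j γ = γ_j β_{π j}` with
`a(γ_j) = a(γ) + j c(γ) ≡ a(γ) mod p`, hence `d(γ_j) ≡ d(γ) mod p` (`a d ≡ 1`).  So every
homomorphism `χ : Γ₀(p) → A` which factors through `γ ↦ d(γ) mod p` satisfies `U_p χ = p • χ`.

Mathlib + `UqOp28` only.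
-/
import Mathlib
import Fermat.Agent.ES.LR.UqOp28

set_option autoImplicit false

open Matrix CongruenceSubgroup
open scoped MatrixGroups

namespace Fermat.Agent.ES.S16.UpChar19

open Fermat.Agent.ES.HEQ.DoubleCoset27 Fermat.Agent.ES.LR.UqOp28

variable {p : ℕ}

/-- the lower left entry of an element of `Γ₀(p)` vanishes mod `p`. -/
theorem lower_left (γ : Gamma0 p) : (((γ : SL(2, ℤ)) 1 0 : ℤ) : ZMod p) = 0 :=
  Gamma0_mem.mp γ.2

/-- `a d = 1` in `ℤ/p` for `γ ∈ Γ₀(p)`. -/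
theorem a_mul_d (γ : Gamma0 p) :
    (((γ : SL(2, ℤ)) 0 0 : ℤ) : ZMod p) * (((γ : SL(2, ℤ)) 1 1 : ℤ) : ZMod p) = 1 := by
  have hdet := (γ : SL(2, ℤ)).2
  rw [Matrix.det_fin_two] at hdet
  have h := congrArg (Int.cast : ℤ → ZMod p) hdet
  push_cast at h
  rw [lower_left γ, mul_zero, sub_zero] at h
  exact h

variable [hp : Fact p.Prime]

/-- `d(cocU γ j) ≡ d(γ)` mod `p`. -/
theorem d_cocU (γ : Gamma0 p) (j : ZMod p) :
    ((((cocU (dvd_refl p) γ j : Gamma0 p) : SL(2, ℤ)) 1 1 : ℤ) : ZMod p)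
      = (((γ : SL(2, ℤ)) 1 1 : ℤ) : ZMod p) := by
  -- compare the upper left entries: `a(cocU γ j) = a(γ) + j c(γ) ≡ a(γ)`
  have e00 := congrFun (congrFun (beta_some_mul (dvd_refl p) γ j) 0) 0
  simp only [Matrix.mul_apply, Fin.sum_univ_two, beta_some, Matrix.of_apply, Matrix.cons_val',
    Matrix.cons_val_zero, Matrix.cons_val_one, Matrix.cons_val_fin_one, one_mul, mul_one,
    mul_zero, add_zero] at e00
  have h := congrArg (Int.cast : ℤ → ZMod p) e00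
  push_cast at h
  rw [lower_left γ, mul_zero, add_zero] at h
  have h1 := a_mul_d γ
  have h2 := a_mul_d (cocU (dvd_refl p) γ j)
  rw [← h] at h2
  calc (((cocU (dvd_refl p) γ j : Gamma0 p) : SL(2, ℤ)) 1 1 : ZMod p)
      = ((((γ : SL(2, ℤ)) 0 0 : ℤ) : ZMod p) * (((γ : SL(2, ℤ)) 1 1 : ℤ) : ZMod p))
          * (((cocU (dvd_refl p) γ j : Gamma0 p) : SL(2, ℤ)) 1 1 : ZMod p) := by
        rw [h1, one_mul]
    _ = ((((γ : SL(2, ℤ)) 0 0 : ℤ) : ZMod p)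
          * (((cocU (dvd_refl p) γ j : Gamma0 p) : SL(2, ℤ)) 1 1 : ZMod p))
          * (((γ : SL(2, ℤ)) 1 1 : ℤ) : ZMod p) := by ring
    _ = (((γ : SL(2, ℤ)) 1 1 : ℤ) : ZMod p) := by rw [h2, one_mul]

/-- **`U_p χ = p • χ`** for every homomorphism `χ : Γ₀(p) → A` which only depends on `d mod p`. -/
theorem UqAdd_eq_smul_of_dep {A : Type*} [AddCommGroup A] (χ : Additive (Gamma0 p) →+ A)
    (hdep : ∀ γ δ : Gamma0 p,
      (((γ : SL(2, ℤ)) 1 1 : ℤ) : ZMod p) = (((δ : SL(2, ℤ)) 1 1 : ℤ) : ZMod p) →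
        χ (Additive.ofMul γ) = χ (Additive.ofMul δ)) :
    UqAdd (dvd_refl p) χ = p • χ := by
  refine AddMonoidHom.ext fun γ' => ?_
  obtain ⟨γ, rfl⟩ := Additive.ofMul.surjective γ'
  rw [UqAdd_apply, AddMonoidHom.smul_apply]
  simp only [hdep _ _ (d_cocU γ _), Finset.sum_const, Finset.card_univ, ZMod.card]

/-- **`U_p χ = χ`** when moreover `(p - 1) • χ = 0` (e.g. values in `ℤ/n`, `n ∣ p - 1`). -/
theorem UqAdd_eq_self_of_dep {A : Type*} [AddCommGroup A] (χ : Additive (Gamma0 p) →+ A)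
    (hdep : ∀ γ δ : Gamma0 p,
      (((γ : SL(2, ℤ)) 1 1 : ℤ) : ZMod p) = (((δ : SL(2, ℤ)) 1 1 : ℤ) : ZMod p) →
        χ (Additive.ofMul γ) = χ (Additive.ofMul δ))
    (hpm : (p - 1) • χ = 0) :
    UqAdd (dvd_refl p) χ = χ := by
  rw [UqAdd_eq_smul_of_dep χ hdep]
  have key : ∀ m : ℕ, m = (p - 1) + 1 → m • χ = χ := by
    intro m hm
    rw [hm, add_smul, hpm, zero_add, one_smul]
  exact key p (Nat.sub_add_cancel hp.out.one_le).symm

end Fermat.Agent.ES.S16.UpChar19
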