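/-
S16 (Mazur's Eisenstein quotient), chapter B (lower bound), final glue (helper19).

**`lower_bound`** : for every prime `p` and every `P ∈ HeckeAlg = ℤ[X_l]` acting as `0` on the
lattice of weight-2 cusp forms of level `Γ₀(p)`, the Eisenstein numerator
`n = (p - 1) / gcd (p - 1, 12)` divides `P(eisensteinSystem p)`; i.e. `n ∣ #(T / I)`.

Assembly of the four bricks of chapter B:
* (B1) `FaithFull19`   : the Hecke algebra (with `U_p`) acts faithfully on `Λ = Hom_par(Γ₀(p), ℤ)`;
* (B2) `EisChar5`      : the Eisenstein class `χ = ω ∘ (d mod p) : Γ₀(p) → ℤ/n` (helper5),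
       `UpChar19`      : `U_p χ = χ`;
* (B3) `LiftChi21`     : `χ` lifts to an integral parabolic homomorphism `φ ∈ Λ` (helper21);
* (B4) `LowerBound19`  : the congruence argument.
-/
import Mathlib
import Fermat.Agent.S23
import Fermat.Agent.ES.EIS.EisChar5
import Fermat.Agent.ES.S16.LiftChi21
import Fermat.Agent.ES.S16.UpChar19
import Fermat.Agent.ES.S16.LowerBound19

set_option autoImplicit false

noncomputable section

namespace Fermat.Agent.ES.S16.LowerBoundFinal19

open ModularCurve ModularCurve.Period CongruenceSubgroup CuspForm Matrix.SpecialLinearGroup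
open Fermat.Agent.ES.HEQ.FaithInst26
open Fermat.Agent.ES.HEQ.DoubleCoset27
open Fermat.Agent.ES.LR.UqOp28
open Fermat.Agent.ES.EIS.ShimuraChar5 Fermat.Agent.ES.EIS.EisChar5
open scoped MatrixGroups

variable (p : ℕ) [hp : Fact p.Prime]

/-- The Eisenstein class only depends on `d mod p`. -/
theorem eisChar_dep (γ δ : Gamma0 p)
    (h : (((γ : SL(2, ℤ)) 1 1 : ℤ) : ZMod p) = (((δ : SL(2, ℤ)) 1 1 : ℤ) : ZMod p)) :
    eisChar p (Additive.ofMul γ) = eisChar p (Additive.ofMul δ) := by
  rw [eisChar_apply, eisChar_apply]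
  have : dChar p γ = dChar p δ := Units.ext (by rw [coe_dChar, coe_dChar]; exact h)
  rw [this]

/-- `(p - 1) • χ = 0` since `n ∣ p - 1`. -/
theorem pred_nsmul_eisChar : (p - 1) • eisChar p = 0 := by
  have h := (nsmul_eisChar_eq_zero_iff p ((p - 1 : ℕ) : ℤ)).mpr
    (Int.natCast_dvd_natCast.mpr (eisensteinNumerator_dvd p))
  rwa [natCast_zsmul] at h

/-- **`U_p χ = χ`** for the Eisenstein class. -/
theorem UqAdd_eisChar : UqAdd (dvd_refl p) (eisChar p) = eisChar p :=
  Fermat.Agent.ES.S16.UpChar19.UqAdd_eq_self_of_dep (eisChar p) (eisChar_dep p)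
    (pred_nsmul_eisChar p)

/-- **(LB)** the lower bound: `n = eisensteinNumerator p` divides `P(eisensteinSystem p)` for every
Hecke polynomial `P` which kills the lattice of cusp forms. -/
theorem lower_bound (P : HeckeAlg)
    (hP : ((latticeRestrictHom p ∅).toRingHom.comp (heckeEvalForms p 2)) P = 0) :
    (eisensteinNumerator p : ℤ) ∣ MvPolynomial.aeval (eisensteinSystem p) P := by
  haveI : NeZero p := ⟨hp.out.ne_zero⟩
  obtain ⟨φ, hφmem, hφ⟩ := Fermat.Agent.ES.S16.LiftChi21.exists_lift_Gamma0 p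
    (eisensteinNumerator p) (eisChar p) (eisChar_isParabolicHom p) (eisChar_hell p)
  refine Fermat.Agent.ES.S16.LowerBound19.dvd_aeval_of_char p (Fermat.Agent.S23.result p)
    (eisensteinNumerator p) (eisChar p) (fun l _ hlp => tdcAdd_eisChar p hlp) (UqAdd_eisChar p)
    (fun k hk => (nsmul_eisChar_eq_zero_iff p k).mp hk) ⟨φ, hφmem⟩ ?_ P hP
  refine AddMonoidHom.ext fun γ' => ?_
  obtain ⟨γ, rfl⟩ := Additive.ofMul.surjective γ'
  exact hφ γ

end Fermat.Agent.ES.S16.LowerBoundFinal19
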